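import Mathlib
import Fermat.Agent.LT.T7.H57.FoldSpec2
import Fermat.Agent.LT.T1.H558.FundDomAbs

/-!
# Row LT, tower T7, leaf T7.14.6a-F.5 `H57.FundXC57` (helper293, registry 2057)

OFF-MAIN.  A measurable (strict) fundamental domain of `Kˣ` in the ideles:

* `fundXC_of293 : T1.LocCompC K → T1.AdeleLatticeC K → H57.FundXC57 K`;
* `fundXC293 : T1.T1Out K → H57.FundXC57 K`.

`Kˣ` is discrete in the ideles (`K` is discrete in `𝔸_K` and the topology of the units is finer),
hence countable (the ideles are second countable); the abstract construction of a strict Borel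
fundamental domain is `T1.H558.exists_strict_fundDom558` (helper558), and
`IsFundamentalDomain.mk'` concludes.
-/

set_option autoImplicit false

open IsDedekindDomain NumberField Filter Topology MeasureTheory

noncomputable section

namespace Fermat.Agent.LT.T7.H293

open Fermat.Agent.LT Fermat.Agent.LT.H556 Fermat.Agent.LT.H556.A0 Fermat.Agent.LT.T7
  Fermat.Agent.LT.T7.H57

variable (K : Type) [Field K] [NumberField K]

/-- `Kˣ` is discrete in the ideles. -/
theorem discrete_ratU293 (hL : T1.AdeleLatticeC K) : DiscreteTopology (ratU57 K).range := by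
  have hd : DiscreteTopology (T1.princ K) := hL.1
  let f : (ratU57 K).range → T1.princ K := fun γ =>
    ⟨((γ : (Adl K)ˣ) : Adl K), by
      obtain ⟨_, α, rfl⟩ := γ
      exact ⟨(α : K), rfl⟩⟩
  have hf : Continuous f :=
    Continuous.subtype_mk (Units.continuous_val.comp continuous_subtype_val) _
  have hinj : Function.Injective f := by
    intro γ γ' h
    have h' : ((γ : (Adl K)ˣ) : Adl K) = ((γ' : (Adl K)ˣ) : Adl K) := congrArg Subtype.val h
    exact Subtype.ext (Units.ext h')
  exact DiscreteTopology.of_continuous_injective hf hinj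

/-- The ideles are second countable. -/
theorem secondCountable_ideles293 (hLC : T1.LocCompC K) :
    SecondCountableTopology (Adl K)ˣ := by
  have h1 : SecondCountableTopology (Adl K) := hLC.1.2.2
  have h2 : SecondCountableTopology (Adl K)ᵐᵒᵖ :=
    (MulOpposite.opHomeomorph (M := Adl K)).symm.secondCountableTopology
  exact Units.isEmbedding_embedProduct.secondCountableTopology

/-- **T7.14.6a-F.5 `FundXC57`** from local compactness and the lattice property. -/
theorem fundXC_of293 (hLC : T1.LocCompC K) (hL : T1.AdeleLatticeC K) : FundXC57 K := by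
  unfold FundXC57
  let _ : MeasurableSpace (Adl K)ˣ := borel (Adl K)ˣ
  have hb : BorelSpace (Adl K)ˣ := ⟨rfl⟩
  intro τ _
  have hsc : SecondCountableTopology (Adl K)ˣ := secondCountable_ideles293 K hLC
  have hdt : DiscreteTopology (ratU57 K).range := discrete_ratU293 K hL
  have hct : Countable (ratU57 K).range :=
    TopologicalSpace.separableSpace_iff_countable.mp inferInstance
  obtain ⟨F, hFm, -, hF⟩ := T1.H558.exists_strict_fundDom558 (ratU57 K).range Set.univ Set.univ
    MeasurableSet.univ MeasurableSet.univ (fun _ _ _ => trivial) (fun _ _ => ⟨1, trivial⟩)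
  exact ⟨F, hFm, IsFundamentalDomain.mk' hFm.nullMeasurableSet fun x => hF x trivial⟩

/-- **T7.14.6a-F.5 `FundXC57`** from the output of tower T1. -/
theorem fundXC293 (h : T1.T1Out K) : FundXC57 K :=
  fundXC_of293 K h.locComp h.adeleLattice

example : T1.T1Out K → FundXC57 K := fundXC293 K

end Fermat.Agent.LT.T7.H293

end
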